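/-
Elementary facts on inertia at a place of `ℚ̄` over a prime `q`: roots of unity of order prime
to `q` and radicals of rational numbers of valuation divisible by the exponent are fixed.
-/
import Fermat.Agent.Galois.Frobenius
import Fermat.Prelude.Def_FLTPrelim_Ramification
import Mathlib.NumberTheory.Padics.PadicVal.Basic

set_option autoImplicit false

namespace Fermat.Agent.Mult

open scoped Pointwise

local notation "Q̄" => AlgebraicClosure ℚ

variable {A : ValuationSubring (AlgebraicClosure ℚ)}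
  {σ : AlgebraicClosure ℚ ≃ₐ[ℚ] AlgebraicClosure ℚ}

theorem apply_mem_iff_of_mem_decomposition (hσ : σ ∈ A.decompositionSubgroup ℚ) (x : Q̄) :
    σ x ∈ A ↔ x ∈ A := by
  have h : σ • A = A := hσ
  conv_lhs => rw [← h, ValuationSubring.mem_pointwise_smul_iff_inv_smul_mem]
  rw [AlgEquiv.smul_def, AlgEquiv.aut_inv, AlgEquiv.symm_apply_apply]

theorem apply_mem_nonunits_iff_of_mem_decomposition (hσ : σ ∈ A.decompositionSubgroup ℚ)
    (x : Q̄) : σ x ∈ A.nonunits ↔ x ∈ A.nonunits := by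
  rw [ValuationSubring.mem_nonunits_iff_or, ValuationSubring.mem_nonunits_iff_or, ← map_inv₀,
    apply_mem_iff_of_mem_decomposition hσ, map_eq_zero]

theorem mem_decomposition_of_mem_inertia (hσ : σ ∈ A.inertiaSubgroupIn ℚ) :
    σ ∈ A.decompositionSubgroup ℚ := by
  obtain ⟨τ, -, rfl⟩ := hσ
  exact τ.2

theorem sub_mem_nonunits_of_mem_inertia (hσ : σ ∈ A.inertiaSubgroupIn ℚ) {x : Q̄} (hx : x ∈ A) :
    σ x - x ∈ A.nonunits := by
  obtain ⟨τ, hτ, rfl⟩ := hσ
  have h1 : τ • IsLocalRing.residue A ⟨x, hx⟩ = IsLocalRing.residue A ⟨x, hx⟩ :=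
    RingEquiv.congr_fun (MonoidHom.mem_ker.1 hτ) _
  rw [← IsLocalRing.ResidueField.residue_smul, ← sub_eq_zero, ← map_sub,
    IsLocalRing.residue_eq_zero_iff, ← ValuationSubring.coe_mem_nonunits_iff] at h1
  exact h1

theorem mem_of_pow_mem {x : Q̄} {n : ℕ} (hn : n ≠ 0) (h : x ^ n ∈ A) : x ∈ A := by
  rcases A.mem_or_inv_mem x with hx | hx
  · exact hx
  obtain ⟨m, rfl⟩ := Nat.exists_eq_succ_of_ne_zero hn
  rcases eq_or_ne x 0 with rfl | h0
  · exact A.zero_mem
  have hmul := mul_mem h (pow_mem hx m)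
  rwa [pow_succ, mul_right_comm, inv_pow, mul_inv_cancel₀ (pow_ne_zero _ h0), one_mul] at hmul

theorem mul_mem_nonunits {x y : Q̄} (hx : x ∈ A.nonunits) (hy : y ∈ A) : x * y ∈ A.nonunits := by
  rw [ValuationSubring.mem_nonunits_iff] at hx ⊢
  rw [map_mul]
  exact mul_lt_one_of_lt_of_le hx ((A.valuation_le_one_iff y).2 hy)

theorem natCast_mem_nonunits_iff {q : ℕ} (hq : q.Prime) (hA : A.LiesOverPrime q) (n : ℕ) :
    (n : Q̄) ∈ A.nonunits ↔ q ∣ n := by
  simpa [Int.natCast_dvd_natCast] using Galois.intCast_mem_nonunits_iff hq hA (n : ℤ)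

theorem eq_one_of_pow_eq_one {q : ℕ} (hq : q.Prime) (hA : A.LiesOverPrime q) {n : ℕ}
    (hn : ¬ q ∣ n) {z : Q̄} (hz : z ^ n = 1) (h1 : z - 1 ∈ A.nonunits) : z = 1 := by
  have hzA : z ∈ A := by simpa using add_mem (A.nonunits_subset h1) A.one_mem
  have hsum : (∑ i ∈ Finset.range n, z ^ i) * (z - 1) = 0 := by
    rw [geom_sum_mul, hz, sub_self]
  rcases mul_eq_zero.1 hsum with h | h
  · refine absurd ?_ (fun hh : (n : Q̄) ∈ A.nonunits => hn ((natCast_mem_nonunits_iff hq hA n).1 hh))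
    have hterm : ∀ i ∈ Finset.range n, z ^ i - 1 ∈ A.nonunits := fun i _ => by
      rw [← geom_sum_mul z i, mul_comm]
      exact mul_mem_nonunits h1 (sum_mem fun j _ => pow_mem hzA j)
    have hs := A.nonunits.neg_mem (sum_mem hterm)
    simpa [Finset.sum_sub_distrib, h] using hs
  · exact sub_eq_zero.1 h

/-- Inertia fixes roots of unity of order prime to the residue characteristic. -/
theorem inertia_apply_of_pow_eq_one {q : ℕ} (hq : q.Prime) (hA : A.LiesOverPrime q)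
    (hσ : σ ∈ A.inertiaSubgroupIn ℚ) {n : ℕ} (hn : ¬ q ∣ n) {z : Q̄} (hz : z ^ n = 1) :
    σ z = z := by
  have hn0 : n ≠ 0 := by rintro rfl; exact hn (dvd_zero q)
  have hz0 : z ≠ 0 := by rintro rfl; simp [zero_pow hn0] at hz
  have hzA : z ∈ A := mem_of_pow_mem hn0 (hz.symm ▸ A.one_mem)
  have hzA' : z⁻¹ ∈ A := mem_of_pow_mem hn0 (by rw [inv_pow, hz, inv_one]; exact A.one_mem)
  have h := eq_one_of_pow_eq_one hq hA hn (z := σ z * z⁻¹)
    (by rw [mul_pow, inv_pow, ← map_pow, hz, map_one, inv_one, one_mul])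
    (by
      have := mul_mem_nonunits (sub_mem_nonunits_of_mem_inertia hσ hzA) hzA'
      rwa [sub_mul, mul_inv_cancel₀ hz0] at this)
  exact (mul_inv_eq_one₀ hz0).1 h

theorem ratCast_mem_of_padicValRat_nonneg {q : ℕ} (hq : q.Prime) (hA : A.LiesOverPrime q) {r : ℚ}
    (h : 0 ≤ padicValRat q r) : (r : Q̄) ∈ A := by
  have := Fact.mk hq
  rcases eq_or_ne r 0 with rfl | hr
  · simp
  have hden : ¬ q ∣ r.den := fun hd => by
    have hnum : ¬ q ∣ r.num.natAbs := fun hn' =>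
      Nat.not_coprime_of_dvd_of_dvd hq.one_lt hn' hd r.reduced
    have h1 : padicValInt q r.num = 0 := padicValNat.eq_zero_of_not_dvd hnum
    have h2 : 1 ≤ padicValNat q r.den := one_le_padicValNat_of_dvd r.den_nz hd
    rw [padicValRat_def, h1] at h
    omega
  have hu : ((r.den : Q̄))⁻¹ ∈ A := by
    by_contra hc
    exact hden ((natCast_mem_nonunits_iff hq hA _).1
      ((ValuationSubring.mem_nonunits_iff_or A).2 (Or.inr hc)))
  rw [show (r : Q̄) = (r.num : Q̄) * (r.den : Q̄)⁻¹ by rw [Rat.cast_def, div_eq_mul_inv]]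
  exact mul_mem (intCast_mem A r.num) hu

/-- Inertia fixes an `n`-th root of a rational number of valuation divisible by `n`, for `n` prime
to the residue characteristic. -/
theorem inertia_apply_of_pow_eq_rat {q : ℕ} (hq : q.Prime) (hA : A.LiesOverPrime q)
    (hσ : σ ∈ A.inertiaSubgroupIn ℚ) {n : ℕ} (hn : ¬ q ∣ n) {t : Q̄} {r : ℚ}
    (ht : t ^ n = (r : Q̄)) (hd : (n : ℤ) ∣ padicValRat q r) : σ t = t := by
  have := Fact.mk hq
  have hn0 : n ≠ 0 := by rintro rfl; exact hn (dvd_zero q)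
  rcases eq_or_ne r 0 with rfl | hr
  · rw [Rat.cast_zero, pow_eq_zero_iff hn0] at ht
    simp [ht]
  obtain ⟨m, hm⟩ := hd
  have hqQ : (q : ℚ) ≠ 0 := Nat.cast_ne_zero.2 hq.ne_zero
  let w : ℚ := r / ((q : ℚ) ^ m) ^ n
  have hw : padicValRat q w = 0 := by
    rw [padicValRat.div hr (pow_ne_zero _ (zpow_ne_zero _ hqQ)), padicValRat.pow,
      padicValRat.zpow, padicValRat.self hq.one_lt, hm, mul_one, sub_eq_zero]
  have hwinv : padicValRat q w⁻¹ = 0 := by rw [padicValRat.inv, hw, neg_zero]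
  let c : Q̄ := ((q : ℚ) ^ m : ℚ)
  have hc : c ≠ 0 := Rat.cast_ne_zero.2 (zpow_ne_zero _ hqQ)
  let u : Q̄ := t * c⁻¹
  have hu : u ^ n = (w : Q̄) := by
    simp only [u, c, w, mul_pow, inv_pow, ht]
    push_cast
    rw [div_eq_mul_inv]
  have huA : u ∈ A := mem_of_pow_mem hn0 (hu ▸ ratCast_mem_of_padicValRat_nonneg hq hA hw.ge)
  have huA' : u⁻¹ ∈ A := mem_of_pow_mem hn0 (by
    rw [inv_pow, hu, ← Rat.cast_inv]
    exact ratCast_mem_of_padicValRat_nonneg hq hA hwinv.ge)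
  have hu0 : u ≠ 0 := by
    refine mul_ne_zero (fun h => hr ?_) (inv_ne_zero hc)
    rw [h, zero_pow hn0] at ht
    exact Rat.cast_eq_zero.1 ht.symm
  have h := eq_one_of_pow_eq_one hq hA hn (z := σ u * u⁻¹)
    (by
      rw [mul_pow, inv_pow, ← map_pow, hu, map_ratCast]
      exact mul_inv_cancel₀ (hu ▸ pow_ne_zero _ hu0))
    (by
      have := mul_mem_nonunits (sub_mem_nonunits_of_mem_inertia hσ huA) huA'
      rwa [sub_mul, mul_inv_cancel₀ hu0] at this)
  have h' := (mul_inv_eq_one₀ hu0).1 h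
  simp only [u, c, map_mul, map_inv₀, map_ratCast] at h'
  exact mul_right_cancel₀ (inv_ne_zero hc) h'

end Fermat.Agent.Mult
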