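/-
A radical of a rational number whose valuation is not divisible by the exponent is moved by
inertia: the field fixed by an inertia group is unramified below.
-/
import Fermat.Agent.Mult.Inertia
import Fermat.Agent.MW.WeakInertia
import Mathlib.NumberTheory.RamificationInertia.Galois
import Mathlib.NumberTheory.NumberField.Basic
import Mathlib.FieldTheory.Galois.IsGaloisGroup
import Mathlib.RingTheory.IsGaloisGroup.Basic
import Mathlib.RingTheory.RamificationInertia.Ramification
import Mathlib.FieldTheory.Normal.Closure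
import Mathlib.FieldTheory.Galois.Basic
import Mathlib.FieldTheory.Finite.Basic

set_option autoImplicit false
set_option linter.style.haveILetI false

open scoped Pointwise NumberField

namespace Fermat.Agent.Mult

section FiniteLevel

open UniqueFactorizationMonoid

variable {L : Type*} [Field L] [NumberField L] [IsGalois ℚ L]

/-- An integer which is an `n`-th power of an algebraic integer fixed by the inertia group of a
prime over `q` has valuation at `q` divisible by `n`. -/
theorem dvd_padicValInt_of_inertia_fixed {q : ℕ} (hq : q.Prime) (P : Ideal (𝓞 L)) [P.IsPrime]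
    (hqP : (q : 𝓞 L) ∈ P) {n : ℕ} {z : ℤ} (hz : z ≠ 0) {u : 𝓞 L}
    (hu : u ^ n = (z : 𝓞 L)) (hfix : ∀ g ∈ P.inertia Gal(L/ℚ), g • u = u) :
    n ∣ padicValInt q z := by
  classical
  let H : Subgroup Gal(L/ℚ) := P.inertia Gal(L/ℚ)
  let E : IntermediateField ℚ L := FixedPoints.intermediateField H
  haveI : IsGaloisGroup H E L := IsGaloisGroup.subgroup Gal(L/ℚ) ℚ L H
  haveI : IsGaloisGroup Gal(L/ℚ) ℤ (𝓞 L) := IsGaloisGroup.of_isFractionRing _ _ _ ℚ L
  haveI : IsGaloisGroup H (𝓞 E) (𝓞 L) := IsGaloisGroup.of_isFractionRing _ _ _ E L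
  let PE : Ideal (𝓞 E) := P.under (𝓞 E)
  let pZ : Ideal ℤ := P.under ℤ
  have hpZ : pZ = Ideal.span {(q : ℤ)} := by
    have hmax : (Ideal.span {(q : ℤ)}).IsMaximal :=
      PrincipalIdealRing.isMaximal_of_irreducible (Nat.prime_iff_prime_int.mp hq).irreducible
    refine (hmax.eq_of_le (Ideal.IsPrime.under ℤ P).ne_top ?_).symm
    rw [Ideal.span_singleton_le_iff_mem, Ideal.mem_comap]
    simpa using hqP
  have hqZ : (q : ℤ) ≠ 0 := Int.natCast_ne_zero.2 hq.ne_zero
  haveI : pZ.IsMaximal :=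
    hpZ ▸ PrincipalIdealRing.isMaximal_of_irreducible (Nat.prime_iff_prime_int.mp hq).irreducible
  haveI : Finite (ℤ ⧸ pZ) := Ideal.finiteQuotientOfFreeOfNeBot _ (by
    rw [hpZ, Ne, Ideal.span_singleton_eq_bot]; exact hqZ)
  haveI : Finite pZ.ResidueField :=
    Finite.of_surjective _ (Ideal.bijective_algebraMap_quotient_residueField pZ).2
  haveI : PerfectField pZ.ResidueField := inferInstance
  have hqE : (q : 𝓞 E) ∈ PE := by
    rw [Ideal.mem_comap]; simpa using hqP
  have hPE0 : PE ≠ ⊥ := fun h => by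
    rw [h, Ideal.mem_bot, Nat.cast_eq_zero] at hqE
    exact hq.ne_zero hqE
  haveI : PE.IsMaximal := (Ideal.IsPrime.under (𝓞 E) P).isMaximal hPE0
  haveI : Finite (𝓞 E ⧸ PE) := Ideal.finiteQuotientOfFreeOfNeBot _ hPE0
  haveI : Finite PE.ResidueField :=
    Finite.of_surjective _ (Ideal.bijective_algebraMap_quotient_residueField PE).2
  haveI : PerfectField PE.ResidueField := inferInstance
  haveI : P.LiesOver PE := ⟨rfl⟩
  haveI : P.LiesOver pZ := ⟨rfl⟩
  haveI : PE.LiesOver pZ := Ideal.LiesOver.tower_bot P PE pZ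
  have hramQ : P.ramificationIdx ℤ = Nat.card H := by
    rw [Ideal.card_inertia_eq_ramificationIdxIn (G := Gal(L/ℚ)) pZ P,
      Ideal.ramificationIdxIn_eq_ramificationIdx pZ P Gal(L/ℚ)]
  have hramE : P.ramificationIdx (𝓞 E) = Nat.card H := by
    rw [← Ideal.ramificationIdxIn_eq_ramificationIdx PE P H,
      ← Ideal.card_inertia_eq_ramificationIdxIn (G := H) PE P]
    have : P.inertia H = ⊤ := eq_top_iff.2 fun g _ x => g.2 x
    rw [this, Subgroup.card_top]
  have he : PE.ramificationIdx ℤ = 1 := by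
    have := Ideal.ramificationIdx_tower (R := ℤ) PE P
    rw [hramQ, hramE] at this
    exact (Nat.mul_eq_right Nat.card_pos.ne').1 this.symm
  have hq0 : (q : 𝓞 E) ≠ 0 := Nat.cast_ne_zero.2 hq.ne_zero
  have hmapq : pZ.map (algebraMap ℤ (𝓞 E)) = Ideal.span {(q : 𝓞 E)} := by
    rw [hpZ, Ideal.map_span, Set.image_singleton, map_natCast]
  have hcount : (normalizedFactors (Ideal.span {(q : 𝓞 E)})).count PE = 1 := by
    rw [← hmapq, ← Ideal.IsDedekindDomain.ramificationIdx_eq_normalizedFactors_count pZ PE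
      (by rw [hmapq, Ne, Ideal.span_singleton_eq_bot]; exact hq0), he]
  -- the radical as an integer of the fixed field
  have huE : (u : L) ∈ E := fun g => by
    simpa [Subgroup.smul_def, algebraMap.smul'] using congrArg (fun x : 𝓞 L => (x : L)) (hfix g.1 g.2)
  have huint : IsIntegral ℤ (⟨(u : L), huE⟩ : E) :=
    (isIntegral_algebraMap_iff (R := ℤ) (A := E) (B := L) (algebraMap E L).injective).1
      (NumberField.RingOfIntegers.isIntegral_coe u)
  let w : 𝓞 E := ⟨⟨(u : L), huE⟩, huint⟩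
  have hw : w ^ n = (z : 𝓞 E) := by
    refine NumberField.RingOfIntegers.coe_injective ((algebraMap E L).injective ?_)
    have := congrArg (fun x : 𝓞 L => (x : L)) hu
    simp only [map_pow, map_intCast] at this ⊢
    exact this
  -- factorisation of the integer
  obtain ⟨m, hm, hzm⟩ : ∃ m : ℤ, ¬ (q : ℤ) ∣ m ∧ z = (q : ℤ) ^ padicValInt q z * m := by
    haveI := Fact.mk hq
    obtain ⟨m, hm⟩ := (padicValInt_dvd z : (q : ℤ) ^ padicValInt q z ∣ z)
    refine ⟨m, fun hd => ?_, hm⟩
    obtain ⟨c, hc⟩ := hd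
    have h2 : (q : ℤ) ^ (padicValInt q z + 1) ∣ z :=
      ⟨c, by rw [pow_succ]; linear_combination hm + (q : ℤ) ^ padicValInt q z * hc⟩
    rcases (padicValInt_dvd_iff (p := q) _ z).1 h2 with h3 | h3
    · exact hz h3
    · omega
  have hmE : (m : 𝓞 E) ∉ PE := fun hmem => hm (by
    rw [← Ideal.mem_span_singleton, ← hpZ]
    have h' : (algebraMap (𝓞 E) (𝓞 L)) (m : 𝓞 E) ∈ P := hmem
    rw [map_intCast] at h'
    exact h')
  have hm0 : (m : 𝓞 E) ≠ 0 := fun h => hmE (by rw [h]; exact PE.zero_mem)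
  have key := congrArg (fun x : 𝓞 E => (normalizedFactors (Ideal.span {x})).count PE) hw
  simp only [← Ideal.span_singleton_pow, normalizedFactors_pow, Multiset.count_nsmul] at key
  rw [hzm] at key
  push_cast at key
  rw [← Ideal.span_singleton_mul_span_singleton, normalizedFactors_mul
      (by rw [← Ideal.span_singleton_pow]; exact pow_ne_zero _ (by
        rwa [Ne, Ideal.zero_eq_bot, Ideal.span_singleton_eq_bot]))
      (by rwa [Ne, Ideal.zero_eq_bot, Ideal.span_singleton_eq_bot]),
    Multiset.count_add, ← Ideal.span_singleton_pow, normalizedFactors_pow, Multiset.count_nsmul,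
    hcount, mul_one,
    Multiset.count_eq_zero_of_notMem (fun hmem => hmE ((Ideal.span_singleton_le_iff_mem _).1
      (Ideal.le_of_dvd (dvd_of_mem_normalizedFactors hmem)))), add_zero] at key
  exact ⟨_, key.symm⟩

end FiniteLevel

/-- A radical `t` with `t ^ n = r` is moved by inertia when `n` does not divide `v_q(r)`. -/
theorem exists_inertia_apply_ne {A : ValuationSubring (AlgebraicClosure ℚ)} {q : ℕ} (hq : q.Prime)
    (hA : A.LiesOverPrime q) {n : ℕ} (hn : n ≠ 0) {t : AlgebraicClosure ℚ} {r : ℚ} (hr : r ≠ 0)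
    (ht : t ^ n = (r : AlgebraicClosure ℚ)) (hd : ¬ (n : ℤ) ∣ padicValRat q r) :
    ∃ σ ∈ A.inertiaSubgroupIn ℚ, σ t ≠ t := by
  by_contra hcon
  push Not at hcon
  haveI := Fact.mk hq
  haveI : Algebra.IsAlgebraic ℚ (AlgebraicClosure ℚ) := AlgebraicClosure.isAlgebraic ℚ
  haveI : IsGalois ℚ (AlgebraicClosure ℚ) := IsAlgClosure.isGalois ℚ _
  let u₀ : AlgebraicClosure ℚ := t * (r.den : AlgebraicClosure ℚ)
  let z : ℤ := r.num * (r.den : ℤ) ^ (n - 1)
  have hden : ((r.den : ℤ)) ≠ 0 := Int.natCast_ne_zero.2 r.den_nz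
  have hz : z ≠ 0 := mul_ne_zero (Rat.num_ne_zero.2 hr) (pow_ne_zero _ hden)
  have hu₀ : u₀ ^ n = (z : AlgebraicClosure ℚ) := by
    obtain ⟨m, rfl⟩ := Nat.exists_eq_succ_of_ne_zero hn
    have : (r.den : AlgebraicClosure ℚ) ≠ 0 := Nat.cast_ne_zero.2 r.den_nz
    simp only [u₀, z, mul_pow, ht, Nat.succ_sub_one, Rat.cast_def]
    push_cast
    field_simp
    rw [pow_succ]; ring
  have hint : IsIntegral ℤ u₀ := by
    refine IsIntegral.of_pow (Nat.pos_of_ne_zero hn) ?_
    rw [hu₀]; exact isIntegral_algebraMap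
  haveI : FiniteDimensional ℚ (IntermediateField.adjoin ℚ {u₀}) :=
    IntermediateField.adjoin.finiteDimensional (Algebra.IsIntegral.isIntegral u₀)
  let L : IntermediateField ℚ (AlgebraicClosure ℚ) :=
    IntermediateField.normalClosure ℚ (IntermediateField.adjoin ℚ {u₀}) (AlgebraicClosure ℚ)
  haveI : FiniteDimensional ℚ L := normalClosure.is_finiteDimensional _ _ _
  haveI : IsGalois ℚ L := IsGalois.normalClosure _ _ _
  haveI : NumberField L := ⟨⟩
  have huL : u₀ ∈ L :=
    IntermediateField.le_normalClosure _ (IntermediateField.mem_adjoin_simple_self ℚ u₀)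
  let ι : 𝓞 L →+* A :=
    { toFun := fun x => ⟨((x : L) : AlgebraicClosure ℚ),
        Galois.mem_valuationSubring_of_isIntegral A
          ((NumberField.RingOfIntegers.isIntegral_coe x).map (L.val.restrictScalars ℤ))⟩
      map_one' := rfl
      map_mul' := fun _ _ => rfl
      map_zero' := rfl
      map_add' := fun _ _ => rfl }
  let P : Ideal (𝓞 L) := (IsLocalRing.maximalIdeal A).comap ι
  have hmemP : ∀ x : 𝓞 L, x ∈ P ↔ ((x : L) : AlgebraicClosure ℚ) ∈ A.nonunits := fun x =>
    (ValuationSubring.coe_mem_nonunits_iff (a := ι x)).symm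
  have hqP : (q : 𝓞 L) ∈ P := by
    rw [hmemP]
    simpa [ValuationSubring.LiesOverPrime] using hA
  let uL : 𝓞 L := ⟨⟨u₀, huL⟩,
    (isIntegral_algebraMap_iff (R := ℤ) (A := L) (B := AlgebraicClosure ℚ)
      (algebraMap L (AlgebraicClosure ℚ)).injective).1 hint⟩
  have huL' : uL ^ n = (z : 𝓞 L) := by
    refine NumberField.RingOfIntegers.coe_injective
      ((algebraMap L (AlgebraicClosure ℚ)).injective ?_)
    simp only [map_pow, map_intCast]
    exact hu₀
  have hfix : ∀ g ∈ P.inertia Gal(L/ℚ), g • uL = uL := by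
    intro g hg
    obtain ⟨g', hg'⟩ := AlgEquiv.restrictNormalHom_surjective (F := ℚ) (K₁ := L)
      (AlgebraicClosure ℚ) g
    have hcomm : ∀ x : L, g' (x : AlgebraicClosure ℚ) = ((g x : L) : AlgebraicClosure ℚ) :=
      fun x => by rw [← hg']; exact (AlgEquiv.restrictNormalHom_apply L g' x).symm
    obtain ⟨τ, hτ, hτe⟩ := MW.exists_mem_inertia_eqOn A L g' (fun x hx hxi => by
      let xL : 𝓞 L := ⟨⟨x, hx⟩,
        (isIntegral_algebraMap_iff (R := ℤ) (A := L) (B := AlgebraicClosure ℚ)
          (algebraMap L (AlgebraicClosure ℚ)).injective).1 hxi⟩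
      have h1 := (hmemP _).1 (hg xL)
      rw [hcomm ⟨x, hx⟩]
      exact h1)
    have h1 : g' u₀ = u₀ := by
      rw [← hτe u₀ huL]
      simp only [u₀, map_mul, map_natCast, hcon τ hτ]
    refine NumberField.RingOfIntegers.ext (Subtype.ext ?_)
    rw [hcomm ⟨u₀, huL⟩] at h1
    exact h1
  have key := dvd_padicValInt_of_inertia_fixed hq P hqP hz huL' hfix
  refine hd ?_
  have hv : padicValRat q (z : ℚ) = padicValRat q r + n * padicValRat q (r.den : ℚ) := by
    have hzq : (z : ℚ) = r * (r.den : ℚ) ^ n := by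
      obtain ⟨m, rfl⟩ := Nat.exists_eq_succ_of_ne_zero hn
      simp only [z, Nat.succ_sub_one, Int.cast_mul, Int.cast_pow, Int.cast_natCast]
      rw [pow_succ', ← mul_assoc, Rat.mul_den_eq_num]
    rw [hzq, padicValRat.mul hr (pow_ne_zero _ (Nat.cast_ne_zero.2 r.den_nz)), padicValRat.pow]
  rw [padicValRat.of_int] at hv
  have : (n : ℤ) ∣ (padicValInt q z : ℤ) := Int.natCast_dvd_natCast.2 key
  rw [hv] at this
  exact (dvd_add_left (dvd_mul_right _ _)).1 this

end Fermat.Agent.Mult
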