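/-
Torsion of an integral Weierstrass curve at a place of `ℚ̄` over a prime of multiplicative
reduction: consequences of the existence of Tate bases.

Standing data: `W` over `ℤ`, a prime `q` with `q ∣ W.Δ` and `q ∤ W.c₄`, a place `A` of `ℚ̄`
over `q` (packaged as `IsMultPlace W q A`), and `n ≠ 0`.

* `tateLine W A n`: the `n`-torsion points in the identity component at `A`; it has order `n`,
  is stable under the decomposition group, contains every `σ • x - x` for `σ` in inertia, and is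
  fixed by inertia when `q ∤ n`.
* `tateSign W A σ = ±1`: the sign by which the decomposition group acts on `E[n] / tateLine`; it
  is `1` on inertia and does not depend on `n`.
* the decomposition group acts on the line by `tateSign * (cyclotomic)`.
* inertia acts trivially on `E[n]` if `q ∤ n ∣ v_q(Δ)`, non-trivially if `n ∤ v_q(Δ)`, and if
  `p ∤ v_q(Δ)` the line is the only inertia stable line of `E[p]`.
-/
import Fermat.Prelude.Def_EllipticCurve_FrobeniusTrace
import Fermat.Prelude.Def_EllipticCurve_ZeroComponentAt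
import Fermat.Prelude.Def_FLTPrelim_Modularity
import Fermat.Agent.Tate.Main
import Fermat.Agent.Mult.Inertia
import Fermat.Agent.Mult.RootMoved
import Mathlib.GroupTheory.OrderOfElement

set_option autoImplicit false

noncomputable section

open scoped WeierstrassCurve.Affine

namespace Fermat.Agent.Mult

/-- The `n`-torsion points over `ℚ̄` of a Weierstrass curve over `ℤ`. -/
abbrev Tors (W : WeierstrassCurve ℤ) (n : ℕ) : Type :=
  Submodule.torsionBy ℤ ((W.map (Int.castRingHom ℚ))⁄(AlgebraicClosure ℚ)).Point n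

/-- A place `A` of `ℚ̄` over a prime `q` at which the model `W` has multiplicative reduction. -/
structure IsMultPlace (W : WeierstrassCurve ℤ) (q : ℕ)
    (A : ValuationSubring (AlgebraicClosure ℚ)) : Prop where
  prime : q.Prime
  Δ_ne_zero : W.Δ ≠ 0
  dvd_Δ : (q : ℤ) ∣ W.Δ
  not_dvd_c₄ : ¬ (q : ℤ) ∣ W.c₄
  liesOver : A.LiesOverPrime q

/-- A semistable model gives a multiplicative place at every bad prime. -/
theorem IsMultPlace.of_semistable {W : WeierstrassCurve ℤ} (hW : W.Δ ≠ 0)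
    (hs : W.IsSemistableModel) {q : ℕ} (hq : q.Prime) (hd : (q : ℤ) ∣ W.Δ)
    {A : ValuationSubring (AlgebraicClosure ℚ)} (hA : A.LiesOverPrime q) :
    IsMultPlace W q A :=
  ⟨hq, hW, hd, hs q hq hd, hA⟩

/-- The line of `n`-torsion points lying in the identity component at `A`. -/
def tateLine (W : WeierstrassCurve ℤ) (A : ValuationSubring (AlgebraicClosure ℚ)) (n : ℕ) :
    Submodule (ZMod n) (Tors W n) :=
  Submodule.span (ZMod n) {x : Tors W n | W.InZeroComponentAt A x.1}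

/-- `δ` is a twist for which Tate bases of all levels exist at `A`. -/
def HasTateTwist (W : WeierstrassCurve ℤ) (A : ValuationSubring (AlgebraicClosure ℚ))
    (δ : AlgebraicClosure ℚ) : Prop :=
  ∃ q : ℕ, q.Prime ∧ A.LiesOverPrime q ∧ Tate.IsTateTwist A δ ∧
    ∀ n : ℕ, n ≠ 0 → Nonempty (Tate.TateBasis W A q δ n)

open scoped Classical in
/-- A square root cutting out the quadratic extension splitting the tangents at the node. -/
def tateRoot (W : WeierstrassCurve ℤ) (A : ValuationSubring (AlgebraicClosure ℚ)) :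
    AlgebraicClosure ℚ :=
  if h : ∃ δ, HasTateTwist W A δ then h.choose else 1

/-- The sign by which the decomposition group acts on the torsion modulo the identity
component. -/
def tateSign (W : WeierstrassCurve ℤ) (A : ValuationSubring (AlgebraicClosure ℚ))
    (σ : AlgebraicClosure ℚ ≃ₐ[ℚ] AlgebraicClosure ℚ) : ℤ :=
  Tate.twistSign (tateRoot W A) σ

theorem tateSign_eq_one_or_neg_one (W : WeierstrassCurve ℤ)
    (A : ValuationSubring (AlgebraicClosure ℚ))
    (σ : AlgebraicClosure ℚ ≃ₐ[ℚ] AlgebraicClosure ℚ) :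
    tateSign W A σ = 1 ∨ tateSign W A σ = -1 :=
  Tate.twistSign_eq_or _ σ

variable {W : WeierstrassCurve ℤ} {q : ℕ} {A : ValuationSubring (AlgebraicClosure ℚ)}
  {σ : AlgebraicClosure ℚ ≃ₐ[ℚ] AlgebraicClosure ℚ} {n : ℕ}

theorem IsMultPlace.isTateTwist_and_basis (h : IsMultPlace W q A) :
    Tate.IsTateTwist A (tateRoot W A) ∧
      ∀ n : ℕ, n ≠ 0 → Nonempty (Tate.TateBasis W A q (tateRoot W A) n) := by
  have hex : ∃ δ, HasTateTwist W A δ := by
    obtain ⟨δ, hδ, hb⟩ :=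
      Tate.exists_tateBasis W h.prime h.Δ_ne_zero h.dvd_Δ h.not_dvd_c₄ A h.liesOver
    exact ⟨δ, q, h.prime, h.liesOver, hδ, hb⟩
  obtain ⟨q', hq', hA', hδ, hb⟩ := hex.choose_spec
  obtain rfl : q' = q := (Nat.prime_dvd_prime_iff_eq hq' h.prime).1
    ((natCast_mem_nonunits_iff hq' hA' q).1 h.liesOver)
  rw [tateRoot, dif_pos hex]
  exact ⟨hδ, hb⟩

/-- The sign is multiplicative. -/
theorem tateSign_mul (h : IsMultPlace W q A)
    (σ τ : AlgebraicClosure ℚ ≃ₐ[ℚ] AlgebraicClosure ℚ) :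
    tateSign W A (σ * τ) = tateSign W A σ * tateSign W A τ :=
  h.isTateTwist_and_basis.1.twistSign_mul σ τ

theorem tateSign_eq_one_of_mem_inertia (h : IsMultPlace W q A)
    (hσ : σ ∈ A.inertiaSubgroupIn ℚ) : tateSign W A σ = 1 :=
  h.isTateTwist_and_basis.1.twistSign_eq_one hσ

variable {δ : AlgebraicClosure ℚ} (T : Tate.TateBasis W A q δ n)

theorem torsion_zsmul_eq_zero (x : Tors W n) : (n : ℤ) • x.1 = 0 :=
  (Submodule.mem_torsionBy_iff (n : ℤ) x.1).1 x.2

/-- The first basis vector as a torsion point. -/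
def tors₁ : Tors W n := ⟨T.P₁, (Submodule.mem_torsionBy_iff _ _).2 T.smul_n_P₁⟩

/-- The second basis vector as a torsion point. -/
def tors₂ : Tors W n := ⟨T.P₂, (Submodule.mem_torsionBy_iff _ _).2 T.smul_n_P₂⟩

theorem exists_eq_comb (x : Tors W n) : ∃ a b : ℤ, x = a • tors₁ T + b • tors₂ T := by
  obtain ⟨a, b, hab⟩ := T.exists_comb x.1 (torsion_zsmul_eq_zero x)
  exact ⟨a, b, Subtype.ext hab⟩

theorem dvd_of_comb_tors_eq_zero {a b : ℤ} (hab : a • tors₁ T + b • tors₂ T = 0) :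
    (n : ℤ) ∣ a ∧ (n : ℤ) ∣ b :=
  T.dvd_of_comb_eq_zero a b (congrArg Subtype.val hab)

theorem zsmul_eq_zero_of_dvd (x : Tors W n) {b : ℤ} (hb : (n : ℤ) ∣ b) : b • x = 0 := by
  obtain ⟨c, rfl⟩ := hb
  refine Subtype.ext ?_
  change ((n : ℤ) * c) • x.1 = 0
  rw [mul_comm, mul_smul, torsion_zsmul_eq_zero]
  exact zsmul_zero c

theorem inZeroComponentAt_comb_iff (a b : ℤ) :
    W.InZeroComponentAt A (a • tors₁ T + b • tors₂ T : Tors W n).1 ↔ (n : ℤ) ∣ b :=
  T.inZeroComponentAt_iff a b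

theorem tateLine_eq_span : tateLine W A n = Submodule.span (ZMod n) {tors₁ T} := by
  refine le_antisymm (Submodule.span_le.2 fun x hx => ?_) (Submodule.span_le.2 ?_)
  · obtain ⟨a, b, rfl⟩ := exists_eq_comb T x
    rw [zsmul_eq_zero_of_dvd _ ((inZeroComponentAt_comb_iff T a b).1 hx), add_zero]
    exact zsmul_mem (Submodule.subset_span (R := ZMod n) (Set.mem_singleton (tors₁ T))) a
  · rintro _ rfl
    refine Submodule.subset_span ?_
    have h1 := (inZeroComponentAt_comb_iff T 1 0).2 (dvd_zero _)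
    rwa [one_zsmul, zero_zsmul, add_zero] at h1

theorem mem_tateLine_iff_exists (x : Tors W n) :
    x ∈ tateLine W A n ↔ ∃ a : ℤ, x = a • tors₁ T := by
  rw [tateLine_eq_span T, Submodule.mem_span_singleton]
  constructor
  · rintro ⟨c, rfl⟩
    obtain ⟨a, rfl⟩ := ZMod.intCast_surjective c
    exact ⟨a, Int.cast_smul_eq_zsmul _ a _⟩
  · rintro ⟨a, rfl⟩
    exact ⟨(a : ZMod n), Int.cast_smul_eq_zsmul _ a _⟩

theorem comb_mem_tateLine_iff (a b : ℤ) :
    a • tors₁ T + b • tors₂ T ∈ tateLine W A n ↔ (n : ℤ) ∣ b := by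
  constructor
  · intro hm
    obtain ⟨c, hc⟩ := (mem_tateLine_iff_exists T _).1 hm
    exact (dvd_of_comb_tors_eq_zero T (a := a - c) (b := b) (by
      rw [sub_smul, sub_add_eq_add_sub, hc, sub_self])).2
  · intro hb
    rw [zsmul_eq_zero_of_dvd _ hb, add_zero]
    exact (mem_tateLine_iff_exists T _).2 ⟨a, rfl⟩

theorem smul_tors₁ (hσ : σ ∈ A.decompositionSubgroup ℚ) {a : ℕ} (ha : σ T.ζ = T.ζ ^ a) :
    σ • tors₁ T = (Tate.twistSign δ σ * (a : ℤ)) • tors₁ T :=
  Subtype.ext (T.smul_P₁ σ hσ a ha)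

theorem smul_tors₂ (hσ : σ ∈ A.decompositionSubgroup ℚ) {k : ℕ} (hk : σ T.t = T.ζ ^ k * T.t) :
    σ • tors₂ T = Tate.twistSign δ σ • ((k : ℤ) • tors₁ T + tors₂ T) :=
  Subtype.ext (T.smul_P₂ σ hσ k hk)

theorem smul_zsmul_tors (σ : AlgebraicClosure ℚ ≃ₐ[ℚ] AlgebraicClosure ℚ) (c : ℤ) (x : Tors W n) :
    σ • (c • x) = c • (σ • x) :=
  (DistribSMul.toAddMonoidHom (Tors W n) σ).map_zsmul c x

/-- A Tate basis of level `n` for the twist `tateRoot W A`. -/
def IsMultPlace.basis (h : IsMultPlace W q A) (hn : n ≠ 0) :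
    Tate.TateBasis W A q (tateRoot W A) n :=
  (h.isTateTwist_and_basis.2 n hn).some

theorem mem_tateLine_iff (h : IsMultPlace W q A) (hn : n ≠ 0) (x : Tors W n) :
    x ∈ tateLine W A n ↔ W.InZeroComponentAt A x.1 := by
  obtain ⟨a, b, rfl⟩ := exists_eq_comb (h.basis hn) x
  rw [comb_mem_tateLine_iff, inZeroComponentAt_comb_iff]

theorem natCard_tateLine (h : IsMultPlace W q A) (hn : n ≠ 0) :
    Nat.card (tateLine W A n) = n := by
  have hord : addOrderOf (tors₁ (h.basis hn)) = n := by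
    refine Nat.dvd_antisymm ?_ ?_
    · refine addOrderOf_dvd_iff_nsmul_eq_zero.2 ?_
      rw [← natCast_zsmul]
      exact zsmul_eq_zero_of_dvd _ dvd_rfl
    · have h0 := addOrderOf_nsmul_eq_zero (tors₁ (h.basis hn))
      rw [← natCast_zsmul] at h0
      exact Int.natCast_dvd_natCast.1 (dvd_of_comb_tors_eq_zero (h.basis hn)
        (b := 0) (by rw [h0, zero_zsmul, add_zero])).1
  conv_rhs => rw [← hord, ← Nat.card_zmultiples]
  refine Nat.card_congr (Equiv.subtypeEquivRight fun x => ?_)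
  rw [mem_tateLine_iff_exists (h.basis hn), AddSubgroup.mem_zmultiples_iff]
  exact exists_congr fun _ => eq_comm

theorem tors₁_ne_zero {p : ℕ} (hp : p.Prime) (T : Tate.TateBasis W A q δ p) : tors₁ T ≠ 0 := by
  intro h0
  have := (dvd_of_comb_tors_eq_zero T (a := 1) (b := 0) (by simp [h0])).1
  exact hp.ne_one (Nat.dvd_one.1 (Int.natCast_dvd_natCast.1 this))

theorem tateLine_ne_bot_and_ne_top (h : IsMultPlace W q A) {p : ℕ} (hp : p.Prime) :
    tateLine W A p ≠ ⊥ ∧ tateLine W A p ≠ ⊤ := by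
  constructor
  · intro hb
    have hm := (mem_tateLine_iff_exists (h.basis hp.ne_zero) _).2 ⟨1, rfl⟩
    rw [hb, Submodule.mem_bot, one_zsmul] at hm
    exact tors₁_ne_zero hp _ hm
  · intro ht
    have := (comb_mem_tateLine_iff (h.basis hp.ne_zero) 0 1).1 (ht ▸ Submodule.mem_top)
    exact hp.ne_one (Nat.dvd_one.1 (Int.natCast_dvd_natCast.1 this))

theorem smul_mem_tateLine (h : IsMultPlace W q A) (hn : n ≠ 0)
    (hσ : σ ∈ A.decompositionSubgroup ℚ) {x : Tors W n} (hx : x ∈ tateLine W A n) :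
    σ • x ∈ tateLine W A n := by
  have := NeZero.mk hn
  obtain ⟨c, rfl⟩ := (mem_tateLine_iff_exists (h.basis hn) x).1 hx
  obtain ⟨a, ha⟩ := (h.basis hn).exists_apply_ζ σ
  rw [smul_zsmul_tors, smul_tors₁ _ hσ ha, smul_smul]
  exact (mem_tateLine_iff_exists _ _).2 ⟨_, rfl⟩

/-- The decomposition group acts on `E[n] / tateLine` by `tateSign`. -/
theorem smul_sub_tateSign_smul_mem (h : IsMultPlace W q A) (hn : n ≠ 0)
    (hσ : σ ∈ A.decompositionSubgroup ℚ) (x : Tors W n) :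
    σ • x - tateSign W A σ • x ∈ tateLine W A n := by
  have := NeZero.mk hn
  obtain ⟨c, b, rfl⟩ := exists_eq_comb (h.basis hn) x
  obtain ⟨a, ha⟩ := (h.basis hn).exists_apply_ζ σ
  obtain ⟨k, hk⟩ := (h.basis hn).exists_apply_t σ
  refine (mem_tateLine_iff_exists (h.basis hn) _).2
    ⟨c * (tateSign W A σ * a) + b * (tateSign W A σ * k) - tateSign W A σ * c, ?_⟩
  rw [smul_add, smul_zsmul_tors, smul_zsmul_tors, smul_tors₁ _ hσ ha, smul_tors₂ _ hσ hk,
    tateSign]
  module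

/-- The decomposition group acts on the line by `tateSign` times the cyclotomic character. -/
theorem smul_tateLine (h : IsMultPlace W q A) (hn : n ≠ 0)
    (hσ : σ ∈ A.decompositionSubgroup ℚ) {a : ℕ}
    (ha : ∀ μ : AlgebraicClosure ℚ, μ ^ n = 1 → σ μ = μ ^ a)
    {x : Tors W n} (hx : x ∈ tateLine W A n) :
    σ • x = (tateSign W A σ * (a : ℤ)) • x := by
  obtain ⟨c, rfl⟩ := (mem_tateLine_iff_exists (h.basis hn) x).1 hx
  rw [smul_zsmul_tors, smul_tors₁ _ hσ (ha _ (h.basis hn).ζ_primitive.pow_eq_one), smul_comm]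
  rfl

/-- Inertia acts trivially on `E[n] / tateLine`. -/
theorem inertia_smul_sub_mem (h : IsMultPlace W q A) (hn : n ≠ 0)
    (hσ : σ ∈ A.inertiaSubgroupIn ℚ) (x : Tors W n) :
    σ • x - x ∈ tateLine W A n := by
  simpa [tateSign_eq_one_of_mem_inertia h hσ] using
    smul_sub_tateSign_smul_mem h hn (mem_decomposition_of_mem_inertia hσ) x

theorem inertia_smul_tors₁ (h : IsMultPlace W q A) (hn : n ≠ 0) (hqn : ¬ q ∣ n)
    (hσ : σ ∈ A.inertiaSubgroupIn ℚ) : σ • tors₁ (h.basis hn) = tors₁ (h.basis hn) := by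
  have hζ := inertia_apply_of_pow_eq_one h.prime h.liesOver hσ hqn
    (h.basis hn).ζ_primitive.pow_eq_one
  rw [smul_tors₁ _ (mem_decomposition_of_mem_inertia hσ) (a := 1) (by rw [hζ, pow_one]),
    ← tateSign, tateSign_eq_one_of_mem_inertia h hσ, Nat.cast_one, one_mul, one_zsmul]

/-- Inertia fixes the line when `q ∤ n`. -/
theorem inertia_smul_of_mem (h : IsMultPlace W q A) (hn : n ≠ 0) (hqn : ¬ q ∣ n)
    (hσ : σ ∈ A.inertiaSubgroupIn ℚ) {x : Tors W n} (hx : x ∈ tateLine W A n) :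
    σ • x = x := by
  obtain ⟨c, rfl⟩ := (mem_tateLine_iff_exists (h.basis hn) x).1 hx
  rw [smul_zsmul_tors, inertia_smul_tors₁ h hn hqn hσ]

/-- Inertia away from `n` acts unipotently. -/
theorem inertia_smul_sub_smul_eq (h : IsMultPlace W q A) (hn : n ≠ 0) (hqn : ¬ q ∣ n)
    (hσ : σ ∈ A.inertiaSubgroupIn ℚ) (x : Tors W n) :
    σ • (σ • x - x) = σ • x - x :=
  inertia_smul_of_mem h hn hqn hσ (inertia_smul_sub_mem h hn hσ x)

theorem inertia_sub_one_mul_sub_one (h : IsMultPlace W q A) (hn : n ≠ 0) (hqn : ¬ q ∣ n)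
    (hσ : σ ∈ A.inertiaSubgroupIn ℚ) :
    (WeierstrassCurve.Affine.Point.galoisRepModuleEnd (K := AlgebraicClosure ℚ) ℚ
        (W.map (Int.castRingHom ℚ)) n σ - 1) *
      (WeierstrassCurve.Affine.Point.galoisRepModuleEnd (K := AlgebraicClosure ℚ) ℚ
        (W.map (Int.castRingHom ℚ)) n σ - 1) = 0 := by
  refine LinearMap.ext fun x => ?_
  change σ • (σ • x - x) - (σ • x - x) = 0
  rw [inertia_smul_sub_smul_eq h hn hqn hσ x, sub_self]

/-- Inertia fixes `E[n]` when `q ∤ n` and `n ∣ v_q(Δ)`. -/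
theorem inertia_smul_eq_self_of_dvd (h : IsMultPlace W q A) (hn : n ≠ 0) (hqn : ¬ q ∣ n)
    (hd : n ∣ padicValInt q W.Δ) (hσ : σ ∈ A.inertiaSubgroupIn ℚ) (x : Tors W n) :
    σ • x = x := by
  have ht : σ (h.basis hn).t = (h.basis hn).t :=
    inertia_apply_of_pow_eq_rat h.prime h.liesOver hσ hqn (h.basis hn).t_pow
      (by rw [(h.basis hn).val_q₀]; exact_mod_cast hd)
  obtain ⟨c, b, rfl⟩ := exists_eq_comb (h.basis hn) x
  rw [smul_add, smul_zsmul_tors, smul_zsmul_tors, inertia_smul_tors₁ h hn hqn hσ,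
    smul_tors₂ _ (mem_decomposition_of_mem_inertia hσ) (k := 0) (by rw [ht, pow_zero, one_mul]),
    ← tateSign, tateSign_eq_one_of_mem_inertia h hσ]
  simp

/-- The torsion is unramified at `q` when `q ∤ n` and `n ∣ v_q(Δ)`. -/
theorem galoisRepUnramifiedAt_of_dvd (hq : q.Prime) (hΔ : W.Δ ≠ 0) (hqΔ : (q : ℤ) ∣ W.Δ)
    (hc : ¬ (q : ℤ) ∣ W.c₄) (hn : n ≠ 0) (hqn : ¬ q ∣ n) (hd : n ∣ padicValInt q W.Δ) :
    WeierstrassCurve.Affine.Point.GaloisRepUnramifiedAt (K := AlgebraicClosure ℚ) ℚ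
      (W.map (Int.castRingHom ℚ)) n q :=
  fun _ hA _ hσ x => inertia_smul_eq_self_of_dvd ⟨hq, hΔ, hqΔ, hc, hA⟩ hn hqn hd hσ x

/-- A torsion point `a P₁ + P₂` fixed by inertia forces `n ∣ v_q(Δ)`. -/
theorem dvd_of_inertia_fixed_comb (h : IsMultPlace W q A) (hn : n ≠ 0) (c : ℤ)
    (hx : ∀ σ ∈ A.inertiaSubgroupIn ℚ,
      σ • (c • tors₁ (h.basis hn) + tors₂ (h.basis hn)) =
        c • tors₁ (h.basis hn) + tors₂ (h.basis hn)) :
    n ∣ padicValInt q W.Δ := by
  have := NeZero.mk hn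
  let T := h.basis hn
  by_contra hd
  have hζ0 : T.ζ ≠ 0 := T.ζ_primitive.ne_zero hn
  obtain ⟨σ, hσ, hne⟩ := exists_inertia_apply_ne h.prime h.liesOver hn
    (t := T.t * T.ζ ^ c) (r := T.q₀) T.q₀_ne_zero
    (by
      rw [mul_pow, T.t_pow, ← zpow_natCast (T.ζ ^ c) n, ← zpow_mul, mul_comm c, zpow_mul,
        zpow_natCast, T.ζ_primitive.pow_eq_one, one_zpow, mul_one])
    (by rw [T.val_q₀]; exact_mod_cast hd)
  obtain ⟨a, ha⟩ := T.exists_apply_ζ σ
  obtain ⟨k, hk⟩ := T.exists_apply_t σ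
  have hD := mem_decomposition_of_mem_inertia hσ
  have h1 := hx σ hσ
  rw [smul_add, smul_zsmul_tors, smul_tors₁ _ hD ha, smul_tors₂ _ hD hk, ← tateSign,
    tateSign_eq_one_of_mem_inertia h hσ, one_mul, one_zsmul] at h1
  have h2 := (dvd_of_comb_tors_eq_zero T (a := c * a + k - c) (b := 0) (by
    rw [← sub_eq_zero] at h1
    rw [← h1]
    module)).1
  refine hne ?_
  rw [map_mul, map_zpow₀]
  erw [hk, ha]
  obtain ⟨m, hm⟩ := h2
  have hz : T.ζ ^ ((k : ℤ) + a * c) = T.ζ ^ c := by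
    rw [show (k : ℤ) + a * c = c + n * m by linear_combination hm, zpow_add₀ hζ0, zpow_mul,
      zpow_natCast, T.ζ_primitive.pow_eq_one, one_zpow, mul_one]
  rw [zpow_add₀ hζ0, zpow_mul, zpow_natCast, zpow_natCast] at hz
  linear_combination T.t * hz

/-- Inertia moves some `n`-torsion point when `n ∤ v_q(Δ)` (also for `q ∣ n`). -/
theorem exists_inertia_smul_ne (h : IsMultPlace W q A) (hn : n ≠ 0)
    (hd : ¬ n ∣ padicValInt q W.Δ) :
    ∃ σ ∈ A.inertiaSubgroupIn ℚ, ∃ x : Tors W n, σ • x ≠ x := by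
  by_contra hcon
  push Not at hcon
  exact hd (dvd_of_inertia_fixed_comb h hn 0 fun σ hσ => hcon σ hσ _)

/-- Outside the line no point is fixed by inertia when `p ∤ v_q(Δ)`. -/
theorem mem_tateLine_of_inertia_fixed (h : IsMultPlace W q A) {p : ℕ} (hp : p.Prime)
    (hd : ¬ p ∣ padicValInt q W.Δ) {x : Tors W p}
    (hx : ∀ σ ∈ A.inertiaSubgroupIn ℚ, σ • x = x) : x ∈ tateLine W A p := by
  obtain ⟨c, b, rfl⟩ := exists_eq_comb (h.basis hp.ne_zero) x
  rw [comb_mem_tateLine_iff]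
  by_contra hb
  obtain ⟨u, v, huv⟩ :=
    (Prime.coprime_iff_not_dvd (Nat.prime_iff_prime_int.1 hp)).2 hb
  refine hd (dvd_of_inertia_fixed_comb h hp.ne_zero (v * c) fun σ hσ => ?_)
  have he : (v * c) • tors₁ (h.basis hp.ne_zero) + tors₂ (h.basis hp.ne_zero) =
      v • (c • tors₁ (h.basis hp.ne_zero) + b • tors₂ (h.basis hp.ne_zero)) := by
    have h0 : (u * p) • tors₂ (h.basis hp.ne_zero) = 0 :=
      zsmul_eq_zero_of_dvd _ (dvd_mul_left _ _)
    conv_lhs => rw [show tors₂ (h.basis hp.ne_zero) =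
      (u * p + v * b) • tors₂ (h.basis hp.ne_zero) by rw [huv, one_zsmul]]
    rw [add_smul _ _ (tors₂ (h.basis hp.ne_zero)), h0, zero_add]
    module
  rw [he, smul_zsmul_tors, hx σ hσ]

/-- When `p ∤ v_q(Δ)` the identity component gives the only inertia stable line. -/
theorem eq_tateLine_of_inertia_stable (h : IsMultPlace W q A) {p : ℕ} (hp : p.Prime)
    (hd : ¬ p ∣ padicValInt q W.Δ) {N : Submodule (ZMod p) (Tors W p)} (hb : N ≠ ⊥) (ht : N ≠ ⊤)
    (hN : ∀ τ ∈ A.inertiaSubgroupIn ℚ, ∀ x ∈ N, τ • x ∈ N) :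
    N = tateLine W A p := by
  have := Fact.mk hp
  have hle_or : tateLine W A p ≤ N ∨ ∀ x ∈ N, x ∈ tateLine W A p → x = 0 := by
    by_cases hall : ∀ x ∈ N, x ∈ tateLine W A p → x = 0
    · exact Or.inr hall
    push Not at hall
    obtain ⟨x, hxN, hxL, hx0⟩ := hall
    refine Or.inl ?_
    rw [tateLine_eq_span (h.basis hp.ne_zero)] at hxL ⊢
    obtain ⟨c, rfl⟩ := Submodule.mem_span_singleton.1 hxL
    rw [Submodule.span_singleton_le_iff_mem]
    have hc : c ≠ 0 := fun hc => hx0 (by rw [hc, zero_smul])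
    simpa [smul_smul, inv_mul_cancel₀ hc] using N.smul_mem c⁻¹ hxN
  by_cases hNL : N ≤ tateLine W A p
  · refine le_antisymm hNL ?_
    rcases hle_or with hle | hzero
    · exact hle
    · exact absurd ((Submodule.eq_bot_iff N).2 fun x hx => hzero x hx (hNL hx)) hb
  obtain ⟨x, hxN, hxL⟩ := SetLike.not_le_iff_exists.1 hNL
  exfalso
  rcases hle_or with hle | hzero
  · refine ht (Submodule.eq_top_iff'.2 fun y => ?_)
    obtain ⟨c, b, rfl⟩ := exists_eq_comb (h.basis hp.ne_zero) x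
    obtain ⟨c', b', rfl⟩ := exists_eq_comb (h.basis hp.ne_zero) y
    have hbne : (b : ZMod p) ≠ 0 := fun hb0 => hxL
      ((comb_mem_tateLine_iff _ c b).2 ((ZMod.intCast_zmod_eq_zero_iff_dvd b p).1 hb0))
    have h1 : ∀ e : ℤ, e • tors₁ (h.basis hp.ne_zero) ∈ N := fun e =>
      hle ((mem_tateLine_iff_exists _ _).2 ⟨e, rfl⟩)
    have h2 : b • tors₂ (h.basis hp.ne_zero) ∈ N := by
      simpa using N.sub_mem hxN (h1 c)
    rw [← Int.cast_smul_eq_zsmul (ZMod p) b, Submodule.smul_mem_iff _ hbne] at h2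
    exact N.add_mem (h1 c') (zsmul_mem h2 b')
  · refine hxL (mem_tateLine_of_inertia_fixed h hp hd fun σ hσ => sub_eq_zero.1 ?_)
    exact hzero _ (N.sub_mem (hN σ hσ x hxN) hxN) (inertia_smul_sub_mem h hp.ne_zero hσ x)

end Fermat.Agent.Mult
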