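/-
Arithmetic of the integral model of the Frey curve: discriminant, `c₄`, semistability, valuations
of the discriminant.
-/
import Fermat.Prelude.Def_FLTPrelim_FreyPackage
import Fermat.Prelude.Def_FLTPrelim_Modularity
import Mathlib.NumberTheory.Padics.PadicVal.Basic
import Mathlib.Tactic

set_option autoImplicit false

namespace Fermat.Agent.Mult

variable (P : FreyPackage)

theorem two_dvd_b : (2 : ℤ) ∣ P.b := (ZMod.intCast_zmod_eq_zero_iff_dvd P.b 2).1 P.hb2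

theorem sixteen_dvd_pow : (16 : ℤ) ∣ P.b ^ P.p := by
  have h1 : (2 : ℤ) ^ P.p ∣ P.b ^ P.p := pow_dvd_pow_of_dvd (two_dvd_b P) _
  have h2 : (2 : ℤ) ^ 4 ∣ (2 : ℤ) ^ P.p := pow_dvd_pow _ (by have := P.hp5; omega)
  exact dvd_trans (by simpa using h2) h1

theorem four_dvd_freyA₂_num : (4 : ℤ) ∣ P.b ^ P.p - 1 - P.a ^ P.p := by
  refine (ZMod.intCast_zmod_eq_zero_iff_dvd _ 4).1 ?_
  have hb : ((P.b ^ P.p : ℤ) : ZMod 4) = 0 :=
    (ZMod.intCast_zmod_eq_zero_iff_dvd _ 4).2 (dvd_trans (by norm_num) (sixteen_dvd_pow P))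
  obtain ⟨k, hk⟩ := P.hp_odd
  push_cast at hb ⊢
  rw [hb, P.ha4, hk, pow_succ, pow_mul, show (3 : ZMod 4) ^ 2 = 1 by decide, one_pow]
  decide

theorem sixteen_dvd_freyA₄_num : (16 : ℤ) ∣ -(P.a ^ P.p) * (P.b ^ P.p) :=
  dvd_mul_of_dvd_right (sixteen_dvd_pow P) _

theorem freyCurveInt_map : P.freyCurveInt.map (Int.castRingHom ℚ) = P.freyCurve := by
  ext
  · simp [FreyPackage.freyCurveInt, FreyPackage.freyCurve]
  · simp only [FreyPackage.freyCurveInt, FreyPackage.freyCurve, WeierstrassCurve.map_a₂,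
      eq_intCast]
    rw [Int.cast_div (four_dvd_freyA₂_num P) (by norm_num)]
    push_cast
    ring
  · simp [FreyPackage.freyCurveInt, FreyPackage.freyCurve]
  · simp only [FreyPackage.freyCurveInt, FreyPackage.freyCurve, WeierstrassCurve.map_a₄,
      eq_intCast]
    rw [Int.cast_div (sixteen_dvd_freyA₄_num P) (by norm_num)]
    push_cast
    ring
  · simp [FreyPackage.freyCurveInt, FreyPackage.freyCurve]

theorem freyCurveInt_Δ_mul : 2 ^ 8 * P.freyCurveInt.Δ = (P.a * P.b * P.c) ^ (2 * P.p) := by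
  obtain ⟨u, hu⟩ := four_dvd_freyA₂_num P
  obtain ⟨w, hw⟩ := sixteen_dvd_freyA₄_num P
  have h2 : P.freyCurveInt.a₂ = u := by
    simp only [FreyPackage.freyCurveInt, hu]
    exact Int.mul_ediv_cancel_left _ (by norm_num)
  have h4 : P.freyCurveInt.a₄ = w := by
    simp only [FreyPackage.freyCurveInt, hw]
    exact Int.mul_ediv_cancel_left _ (by norm_num)
  rw [pow_mul', mul_pow, mul_pow, ← P.hFLT]
  simp only [WeierstrassCurve.Δ, WeierstrassCurve.b₂, WeierstrassCurve.b₄, WeierstrassCurve.b₆,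
    WeierstrassCurve.b₈]
  rw [h2, h4]
  simp only [FreyPackage.freyCurveInt]
  linear_combination
    (-(16 * w - P.a ^ P.p * P.b ^ P.p) * (4 * u + 1) ^ 2
      + 4 * ((16 * w) ^ 2 - 16 * w * (P.a ^ P.p * P.b ^ P.p) + (P.a ^ P.p * P.b ^ P.p) ^ 2)) * hw
    - (P.a ^ P.p * P.b ^ P.p) ^ 2 * (4 * u + 1 + (P.b ^ P.p - P.a ^ P.p)) * hu

theorem freyCurveInt_c₄ :
    P.freyCurveInt.c₄ = (P.a ^ P.p + P.b ^ P.p) ^ 2 - P.a ^ P.p * P.b ^ P.p := by
  obtain ⟨u, hu⟩ := four_dvd_freyA₂_num P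
  obtain ⟨w, hw⟩ := sixteen_dvd_freyA₄_num P
  have h2 : P.freyCurveInt.a₂ = u := by
    simp only [FreyPackage.freyCurveInt, hu]
    exact Int.mul_ediv_cancel_left _ (by norm_num)
  have h4 : P.freyCurveInt.a₄ = w := by
    simp only [FreyPackage.freyCurveInt, hw]
    exact Int.mul_ediv_cancel_left _ (by norm_num)
  simp only [WeierstrassCurve.c₄, WeierstrassCurve.b₂, WeierstrassCurve.b₄]
  rw [h2, h4]
  simp only [FreyPackage.freyCurveInt]
  linear_combination (-(4 * u + 1 + (P.b ^ P.p - P.a ^ P.p)) : ℤ) * hu + 3 * hw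

theorem freyCurveInt_Δ_ne_zero : P.freyCurveInt.Δ ≠ 0 := by
  intro h
  have h1 := freyCurveInt_Δ_mul P
  rw [h, mul_zero] at h1
  exact pow_ne_zero _ P.habc0 h1.symm

theorem dvd_abc_of_dvd_Δ {q : ℕ} (hq : q.Prime) (h : (q : ℤ) ∣ P.freyCurveInt.Δ) :
    (q : ℤ) ∣ P.a * P.b * P.c :=
  (Nat.prime_iff_prime_int.1 hq).dvd_of_dvd_pow (n := 2 * P.p)
    (freyCurveInt_Δ_mul P ▸ dvd_mul_of_dvd_right h _)

theorem isSemistableModel_freyCurveInt : P.freyCurveInt.IsSemistableModel := by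
  intro q hq hd hc
  have hq' : Prime (q : ℤ) := Nat.prime_iff_prime_int.1 hq
  rw [freyCurveInt_c₄] at hc
  have habc := dvd_abc_of_dvd_Δ P hq hd
  have hab : ∀ {x y : ℤ}, gcd x y = 1 → (q : ℤ) ∣ x → ¬ (q : ℤ) ∣ y :=
    fun h hx hy => hq'.not_dvd_one (h ▸ dvd_gcd hx hy)
  have hp := P.hp0
  rcases hq'.dvd_or_dvd habc with h | h
  · rcases hq'.dvd_or_dvd h with ha | hb
    · refine hab P.hgcdab ha (hq'.dvd_of_dvd_pow (n := 2 * P.p) ?_)
      have h' := dvd_pow ha hp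
      obtain ⟨k, hk⟩ := h'
      obtain ⟨l, hl⟩ := hc
      exact ⟨l - k * (P.a ^ P.p + P.b ^ P.p),
        by linear_combination (norm := ring) hl - (P.a ^ P.p + P.b ^ P.p) * hk⟩
    · refine hab P.hgcdab ?_ hb
      refine hq'.dvd_of_dvd_pow (n := 2 * P.p) ?_
      obtain ⟨k, hk⟩ := dvd_pow hb hp
      obtain ⟨l, hl⟩ := hc
      exact ⟨l - k * (P.a ^ P.p + P.b ^ P.p),
        by linear_combination (norm := ring) hl - (P.a ^ P.p + P.b ^ P.p) * hk⟩
  · obtain ⟨k, hk⟩ := dvd_pow h hp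
    obtain ⟨l, hl⟩ := hc
    have hprod : (q : ℤ) ∣ P.a ^ P.p * P.b ^ P.p :=
      ⟨k * (P.a ^ P.p + P.b ^ P.p) - l, by
        linear_combination (norm := ring) (-1 : ℤ) * hl + (P.a ^ P.p + P.b ^ P.p) * (P.hFLT.trans hk)⟩
    rcases hq'.dvd_or_dvd hprod with ha | hb
    · exact hab P.hgcdac (hq'.dvd_of_dvd_pow ha) h
    · exact hab P.hgcdbc (hq'.dvd_of_dvd_pow hb) h

theorem padicValInt_freyCurveInt_Δ {q : ℕ} (hq : q.Prime) :
    padicValInt q P.freyCurveInt.Δ + (if q = 2 then 8 else 0) =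
      2 * P.p * padicValInt q (P.a * P.b * P.c) := by
  have : Fact q.Prime := ⟨hq⟩
  have h := congrArg (padicValInt q) (freyCurveInt_Δ_mul P)
  rw [padicValInt.mul (by norm_num) (freyCurveInt_Δ_ne_zero P)] at h
  simp only [padicValInt, Int.natAbs_pow] at h ⊢
  rw [padicValNat.pow] at h
  rw [padicValNat.pow] at h
  have h2 : 8 * padicValNat q (2 : ℤ).natAbs = if q = 2 then 8 else 0 := by
    rw [show (2 : ℤ).natAbs = 2 from rfl]
    split
    · subst q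
      simp
    · rename_i hne
      rw [padicValNat.eq_zero_of_not_dvd fun hd =>
        hne ((Nat.prime_dvd_prime_iff_eq hq Nat.prime_two).1 hd)]
  rw [h2] at h
  omega

theorem dvd_padicValInt_freyCurveInt_Δ {q : ℕ} (hq : q.Prime) (hq2 : q ≠ 2) :
    P.p ∣ padicValInt q P.freyCurveInt.Δ := by
  have h := padicValInt_freyCurveInt_Δ P hq
  rw [if_neg hq2, add_zero] at h
  exact h ▸ Dvd.dvd.mul_right (dvd_mul_left _ _) _

theorem not_dvd_padicValInt_two_freyCurveInt_Δ : ¬ P.p ∣ padicValInt 2 P.freyCurveInt.Δ := by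
  intro hd
  have h := padicValInt_freyCurveInt_Δ P Nat.prime_two
  rw [if_pos rfl] at h
  have h8 : P.p ∣ 8 := (Nat.dvd_add_right hd).1 (h ▸ Dvd.dvd.mul_right (dvd_mul_left _ _) _)
  have h2 : P.p ∣ 2 := P.pp.dvd_of_dvd_pow (show P.p ∣ 2 ^ 3 by norm_num; exact h8)
  have := Nat.le_of_dvd (by norm_num) h2
  have := P.hp5
  omega

theorem two_dvd_freyCurveInt_Δ : (2 : ℤ) ∣ P.freyCurveInt.Δ := by
  have : Fact (Nat.Prime 2) := ⟨Nat.prime_two⟩
  by_contra hcon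
  have h0 : padicValInt 2 P.freyCurveInt.Δ = 0 :=
    padicValInt.eq_zero_of_not_dvd (by exact_mod_cast hcon)
  exact not_dvd_padicValInt_two_freyCurveInt_Δ P (h0 ▸ dvd_zero _)

theorem isGoodPrimeFor_iff {q : ℕ} (hq : q.Prime) (hq2 : q ≠ 2) :
    P.freyCurveInt.IsGoodPrimeFor q ↔ ¬ (q : ℤ) ∣ P.a * P.b * P.c := by
  refine not_congr ⟨dvd_abc_of_dvd_Δ P hq, fun h => ?_⟩
  have hq' : Prime (q : ℤ) := Nat.prime_iff_prime_int.1 hq
  have hd : (q : ℤ) ∣ 2 ^ 8 * P.freyCurveInt.Δ :=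
    freyCurveInt_Δ_mul P ▸ dvd_pow h (by have := P.hp5; omega)
  refine (hq'.dvd_or_dvd hd).resolve_left fun h2 => hq2 ?_
  have h3 : (q : ℤ) ∣ ((2 : ℕ) : ℤ) := by exact_mod_cast hq'.dvd_of_dvd_pow h2
  exact (Nat.prime_dvd_prime_iff_eq hq Nat.prime_two).1 (Int.natCast_dvd_natCast.1 h3)

end Fermat.Agent.Mult
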