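/-
The mod-`p` representation of the Frey curve is unramified away from `2p`.
-/
import Fermat.Agent.Mult.Main
import Fermat.Agent.Mult.Frey
import Fermat.Agent.ECRed.Rat

set_option autoImplicit false

namespace Fermat.Agent.Mult

theorem freyGaloisRep_unramifiedAt (P : FreyPackage) {q : ℕ} (hq : q.Prime) (hq2 : q ≠ 2)
    (hqp : q ≠ P.p) : P.GaloisRepUnramifiedAt q := by
  unfold FreyPackage.GaloisRepUnramifiedAt
  rw [← freyCurveInt_map]
  have hn : ¬ q ∣ P.p := fun h => hqp ((Nat.prime_dvd_prime_iff_eq hq P.pp).1 h)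
  by_cases hg : P.freyCurveInt.IsGoodPrimeFor q
  · exact ECRed.galoisRepUnramifiedAt_of_isGoodPrimeFor P.freyCurveInt hq hg hn
  · have hd : (q : ℤ) ∣ P.freyCurveInt.Δ := not_not.1 hg
    exact galoisRepUnramifiedAt_of_dvd hq (freyCurveInt_Δ_ne_zero P) hd
      (isSemistableModel_freyCurveInt P q hq hd) P.hp0 hn
      (dvd_padicValInt_freyCurveInt_Δ P hq hq2)

end Fermat.Agent.Mult
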